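import Mathlib

/-!
# S23, abstract part

`span_integral_eq_top`: a commutative ring `𝕋` of operators on a complex vector space `V`, finite
over `ℤ`, stabilising a subset `VZ` which spans `V` and on which an injective linear map `P` takes
integral values; if the pairing `(t, f) ↦ a (t f)` is non degenerate in `f`, then `V` is spanned by
the vectors `f` on which all `a (t f)` are integers.
-/

set_option autoImplicit false

namespace Fermat.Agent.S23lib

open scoped BigOperators

/-- `ℚ`-linear functionals separate the points of `ℂ`. -/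
theorem eq_zero_of_forall_ratFunctional {c : ℂ} (h : ∀ l : ℂ →ₗ[ℚ] ℚ, l c = 0) : c = 0 :=
  (Module.forall_dual_apply_eq_zero_iff ℚ c).mp h

/-- common denominator of a finite family of rationals -/
theorem exists_common_den {ι : Type*} [Fintype ι] (q : ι → ℚ) :
    ∃ (D : ℤ) (n : ι → ℤ), D ≠ 0 ∧ ∀ i, (D : ℚ) * q i = n i := by
  classical
  refine ⟨∏ i, ((q i).den : ℤ), fun i => (q i).num * ∏ j ∈ Finset.univ.erase i, ((q j).den : ℤ), ?_, ?_⟩
  · exact Finset.prod_ne_zero_iff.mpr fun i _ => by exact_mod_cast (q i).den_nz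
  · intro i
    rw [← Finset.mul_prod_erase Finset.univ _ (Finset.mem_univ i)]
    push_cast
    have h := Rat.den_mul_eq_num (q i)
    calc ((q i).den : ℚ) * (∏ j ∈ Finset.univ.erase i, ((q j).den : ℚ)) * q i
        = ((q i).den * q i) * ∏ j ∈ Finset.univ.erase i, ((q j).den : ℚ) := by ring
      _ = _ := by rw [h]

theorem span_integral_eq_top {V : Type*} [AddCommGroup V] [Module ℂ V] {X : Type*}
    (𝕋 : Subalgebra ℤ (Module.End ℂ V)) (hcomm : ∀ s ∈ 𝕋, ∀ t ∈ 𝕋, s * t = t * s)
    [Module.Finite ℤ 𝕋]
    (a : V →ₗ[ℂ] ℂ) (hnd : ∀ f, (∀ t ∈ 𝕋, a (t f) = 0) → f = 0)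
    (P : V →ₗ[ℂ] (X → ℂ)) (hP : Function.Injective P)
    (VZ : Set V) (hVZ : ∀ f ∈ VZ, ∀ x, ∃ m : ℤ, P f x = m)
    (hstab : ∀ t ∈ 𝕋, ∀ f ∈ VZ, t f ∈ VZ)
    (hspan : Submodule.span ℂ VZ = ⊤) :
    Submodule.span ℂ {f : V | ∀ t ∈ 𝕋, ∃ m : ℤ, a (t f) = m} = ⊤ := by
  classical
  have : IsAddTorsionFree (Module.End ℂ V) := .of_isTorsionFree ℂ _
  have : IsAddTorsionFree 𝕋 := by
    refine ⟨fun n hn x y hxy => Subtype.ext ?_⟩
    have h : n • (x : Module.End ℂ V) = n • (y : Module.End ℂ V) := congrArg Subtype.val hxy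
    exact nsmul_right_injective hn h
  have : Module.Free ℤ 𝕋 := Module.free_of_finite_type_torsion_free'
  let b := Module.Free.chooseBasis ℤ 𝕋
  -- every element of `𝕋` is an integral combination of the basis
  have hrepr : ∀ t : 𝕋, (t : Module.End ℂ V) = ∑ i, (b.repr t i) • (b i : Module.End ℂ V) := by
    intro t
    conv_lhs => rw [← b.sum_repr t]
    simp
  -- Step 1
  have step1 : ∀ c : _ → ℂ, ∑ i, c i • (b i : Module.End ℂ V) = 0 → c = 0 := by
    intro c hc
    funext i₀
    apply eq_zero_of_forall_ratFunctional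
    intro l
    obtain ⟨D, n, hD, hn⟩ := exists_common_den (fun i => l (c i))
    have hs : ∑ i, n i • (b i : Module.End ℂ V) = 0 := by
      apply LinearMap.ext_on hspan
      intro f hf
      apply hP
      funext x
      choose m hm using fun i => hVZ _ (hstab (b i) (b i).2 f hf) x
      have h0 : ∑ i, c i * (m i : ℂ) = 0 := by
        have := congrArg (fun u : Module.End ℂ V => P (u f) x) hc
        simpa [LinearMap.sum_apply, hm] using this
      have h1 : ∑ i, (m i : ℚ) * l (c i) = 0 := by
        have := congrArg l h0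
        rw [map_sum, map_zero] at this
        rw [← this]
        refine Finset.sum_congr rfl fun i _ => ?_
        have : c i * (m i : ℂ) = (m i : ℚ) • c i := by
          rw [Rat.smul_def]; push_cast; ring
        rw [this, map_smul, smul_eq_mul]
      have h2 : ∑ i, (n i : ℚ) * (m i : ℚ) = 0 := by
        have : ∑ i, (n i : ℚ) * (m i : ℚ) = D * ∑ i, (m i : ℚ) * l (c i) := by
          rw [Finset.mul_sum]
          refine Finset.sum_congr rfl fun i _ => ?_
          rw [← hn i]; ring
        rw [this, h1, mul_zero]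
      have h3 : ∑ i, (n i : ℂ) * (m i : ℂ) = 0 := by
        have := congrArg (fun r : ℚ => (r : ℂ)) h2
        simpa using this
      simpa [LinearMap.sum_apply, hm] using h3
    have hs' : ∑ i, n i • b i = 0 := by
      apply Subtype.ext
      simpa using hs
    have hn0 : n i₀ = 0 := by
      have := Fintype.linearIndependent_iff.mp b.linearIndependent n hs' i₀
      exact this
    have := hn i₀
    rw [hn0] at this
    have hD' : (D : ℚ) ≠ 0 := by exact_mod_cast hD
    simpa [hD'] using this
  -- the functionals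
  let Φ : V →ₗ[ℂ] (_ → ℂ) := LinearMap.pi fun i => a ∘ₗ (b i : Module.End ℂ V)
  have hΦ : ∀ f i, Φ f i = a ((b i : Module.End ℂ V) f) := fun f i => rfl
  have hat : ∀ (t : 𝕋) (f : V), a ((t : Module.End ℂ V) f) = ∑ i, (b.repr t i : ℂ) * Φ f i := by
    intro t f
    rw [hrepr t]
    simp [LinearMap.sum_apply, hΦ]
  have hinj : Function.Injective Φ := by
    rw [injective_iff_map_eq_zero]
    intro f hf
    apply hnd
    intro t ht
    rw [hat ⟨t, ht⟩ f, hf]
    simp
  have hsurj : LinearMap.range Φ = ⊤ := by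
    by_contra hne
    obtain ⟨g, hg0, hg⟩ := Submodule.exists_le_ker_of_lt_top _ (lt_top_iff_ne_top.mpr hne)
    apply hg0
    have hgv : ∀ v, g v = ∑ i, v i * g (Pi.single i 1) := by
      intro v
      conv_lhs => rw [← Finset.univ_sum_single v]
      rw [map_sum]
      refine Finset.sum_congr rfl fun i _ => ?_
      have : (Pi.single i (v i) : _ → ℂ) = v i • Pi.single i 1 := by
        rw [← Pi.single_smul, smul_eq_mul, mul_one]
      rw [this, map_smul, smul_eq_mul]
    have hc : (fun i => g (Pi.single i 1)) = 0 := by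
      apply step1
      -- u := ∑ c i • b i kills everything
      apply LinearMap.ext
      intro f
      apply hnd
      intro t ht
      have hcomm' : t ((∑ i, g (Pi.single i 1) • (b i : Module.End ℂ V)) f) =
          (∑ i, g (Pi.single i 1) • (b i : Module.End ℂ V)) (t f) := by
        simp only [LinearMap.sum_apply, LinearMap.smul_apply, map_sum, map_smul]
        refine Finset.sum_congr rfl fun i _ => ?_
        congr 1
        exact congrArg (fun u : Module.End ℂ V => u f) (hcomm t ht (b i) (b i).2)
      rw [hcomm']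
      have h1 : g (Φ (t f)) = 0 := hg ⟨t f, rfl⟩
      rw [hgv] at h1
      rw [← h1]
      simp only [LinearMap.sum_apply, LinearMap.smul_apply, map_sum, map_smul, smul_eq_mul, hΦ]
      exact Finset.sum_congr rfl fun i _ => mul_comm _ _
    apply LinearMap.ext
    intro v
    rw [hgv]
    simp [congrFun hc]
  -- dual basis
  have hex : ∀ j, ∃ f, Φ f = Pi.single j 1 := fun j => by
    have : (Pi.single j 1 : _ → ℂ) ∈ LinearMap.range Φ := hsurj ▸ Submodule.mem_top
    exact this
  choose F hF using hex
  rw [eq_top_iff]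
  intro f _
  have hf : f = ∑ j, Φ f j • F j := by
    apply hinj
    rw [map_sum]
    simp only [map_smul, hF]
    funext i
    simp [Finset.sum_apply, Pi.single_apply]
  rw [hf]
  refine Submodule.sum_mem _ fun j _ => Submodule.smul_mem _ _ (Submodule.subset_span ?_)
  intro t ht
  refine ⟨b.repr ⟨t, ht⟩ j, ?_⟩
  rw [hat ⟨t, ht⟩ (F j), hF]
  simp [Pi.single_apply]

end Fermat.Agent.S23lib
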