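import Fermat.Agent.S23lib.Abstract

/-!
# S23: a complex valued homomorphism of a finitely generated group is a complex combination of
integer valued homomorphisms obtained from it by post-composition with additive maps.
-/

set_option autoImplicit false

namespace Fermat.Agent.S23lib

theorem exists_int_decomp {G : Type*} [Group G] [hG : Group.FG G] (ψ : Additive G →+ ℂ) :
    ∃ (n : ℕ) (e : Fin n → ℂ) (L : Fin n → (ℂ →+ ℂ)),
      (∀ i g, ∃ m : ℤ, L i (ψ g) = m) ∧ (∀ g, ψ g = ∑ i, e i * L i (ψ g)) := by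
  classical
  obtain ⟨S, hS, hfin⟩ := Group.fg_iff.mp hG
  have : Fintype S := hfin.fintype
  let E : Submodule ℚ ℂ := Submodule.span ℚ ((fun s : G => ψ (Additive.ofMul s)) '' S)
  have : FiniteDimensional ℚ E := FiniteDimensional.span_of_finite ℚ (hfin.image _)
  -- general closure principle
  have hind : ∀ (A : AddSubgroup ℂ) (M : ℂ →+ ℂ), (∀ s ∈ S, M (ψ (Additive.ofMul s)) ∈ A) →
      ∀ g : G, M (ψ (Additive.ofMul g)) ∈ A := by
    intro A M hA g
    have hg : g ∈ Subgroup.closure S := hS ▸ Subgroup.mem_top g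
    induction hg using Subgroup.closure_induction with
    | mem x hx => exact hA x hx
    | one => simp
    | mul x y _ _ hx hy =>
      rw [ofMul_mul, map_add, map_add]; exact A.add_mem hx hy
    | inv x _ hx =>
      rw [ofMul_inv, map_neg, map_neg]; exact A.neg_mem hx
  have hE : ∀ g : G, ψ (Additive.ofMul g) ∈ E := by
    intro g
    exact hind E.toAddSubgroup (AddMonoidHom.id ℂ)
      (fun s hs => Submodule.subset_span ⟨s, hs, rfl⟩) g
  let b := Module.finBasis ℚ E
  have hext : ∀ i, ∃ l : ℂ →ₗ[ℚ] ℚ, l ∘ₗ E.subtype = b.coord i := fun i =>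
    LinearMap.exists_extend (b.coord i)
  choose l hl using hext
  have hl' : ∀ i (x : E), l i (x : ℂ) = b.repr x i := fun i x => by
    have := congrArg (fun F : E →ₗ[ℚ] ℚ => F x) (hl i)
    simpa using this
  obtain ⟨D, nn, hD, hnn⟩ := exists_common_den
    (fun p : Fin (Module.finrank ℚ E) × S => l p.1 (ψ (Additive.ofMul (p.2 : G))))
  have hDQ : (D : ℚ) ≠ 0 := by exact_mod_cast hD
  have hDC : (D : ℂ) ≠ 0 := by exact_mod_cast hD
  let L : Fin (Module.finrank ℚ E) → (ℂ →+ ℂ) := fun i =>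
    { toFun := fun x => (((D : ℚ) * l i x : ℚ) : ℂ)
      map_zero' := by simp
      map_add' := fun x y => by rw [map_add]; push_cast; ring }
  have hLdef : ∀ i x, L i x = (((D : ℚ) * l i x : ℚ) : ℂ) := fun i x => rfl
  refine ⟨Module.finrank ℚ E, fun i => (b i : ℂ) / D, L, ?_, ?_⟩
  · intro i g
    have := hind (Int.castAddHom ℂ).range (L i) (fun s hs => ⟨nn (i, ⟨s, hs⟩), by
      rw [hLdef, hnn (i, ⟨s, hs⟩)]; simp⟩) (Additive.toMul g)
    obtain ⟨m, hm⟩ := this
    exact ⟨m, hm.symm⟩
  · intro g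
    have h1 := b.sum_repr ⟨ψ g, hE (Additive.toMul g)⟩
    have h2 := congrArg (fun x : E => (x : ℂ)) h1
    simp only [AddSubmonoidClass.coe_finsetSum, Submodule.coe_smul] at h2
    conv_lhs => rw [← h2]
    refine Finset.sum_congr rfl fun i _ => ?_
    rw [hLdef, ← hl' i ⟨ψ g, hE (Additive.toMul g)⟩, Rat.smul_def]
    push_cast
    field_simp

end Fermat.Agent.S23lib
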