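import Fermat.Agent.S49H.Forms

/-!
# S23: the `q`-coefficients of `f` are the first coefficients of the Hecke translates of `f`.
-/

set_option autoImplicit false
open CuspForm CongruenceSubgroup ModularFormClass

namespace Fermat.Agent.S23lib

open Fermat.Agent.S49
open P2MW.S_CuspForm_intLattice_fg.W3WsD

variable {N : ℕ} [NeZero N]

theorem qCoeff_mem_of_forall (A : AddSubgroup ℂ) :
    ∀ (n : ℕ) (f : CuspForm (Gamma0 N) 2),
      (∀ t ∈ CuspForm.heckeAlgebra N 2 ∅, qCoeff ⇑(t f) 1 ∈ A) → qCoeff ⇑f n ∈ A := by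
  intro n
  induction n using Nat.strong_induction_on with
  | _ n ih =>
    intro f hf
    rcases Nat.lt_or_ge n 2 with hn | hn
    · interval_cases n
      · rw [qCoeff_cusp_zero]; exact A.zero_mem
      · exact hf 1 (one_mem _)
    · have hn1 : n ≠ 1 := by omega
      set ℓ := n.minFac with hℓdef
      have hℓ : ℓ.Prime := Nat.minFac_prime hn1
      obtain ⟨m, hm⟩ : ℓ ∣ n := Nat.minFac_dvd n
      have hmlt : m < n := by
        have h2 := hℓ.two_le
        have hmpos : 0 < m := by
          rcases Nat.eq_zero_or_pos m with h0 | h0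
          · subst h0; omega
          · exact h0
        nlinarith
      by_cases hℓN : ℓ ∣ N
      · have hmem := CuspForm.heckeULin_mem_heckeAlgebra (k := 2) (S := ∅) hℓ hℓN (by simp)
        have h1 := ih m hmlt (CuspForm.heckeULin 2 hℓN f) (fun t ht => hf (t * _) (mul_mem ht hmem))
        rw [qCoeff_heckeULin hℓ hℓN, ← hm] at h1
        exact h1
      · have hmem := CuspForm.heckeTLin_mem_heckeAlgebra (k := 2) (S := ∅) hℓ hℓN (by simp)
        have h1 := ih m hmlt (CuspForm.heckeTLin 2 hℓ hℓN f)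
          (fun t ht => hf (t * _) (mul_mem ht hmem))
        rw [qCoeff_heckeTLin hℓ hℓN, ← hm] at h1
        have h2 : (ℓ : ℂ) * (if ℓ ∣ m then qCoeff ⇑f (m / ℓ) else 0) ∈ A := by
          split_ifs with hd
          · have h3 := ih (m / ℓ) (lt_of_le_of_lt (Nat.div_le_self _ _) hmlt) f hf
            have := A.nsmul_mem h3 ℓ
            rwa [nsmul_eq_mul] at this
          · rw [mul_zero]; exact A.zero_mem
        have := A.sub_mem h1 h2
        rwa [add_sub_cancel_right] at this

/-- first coefficient, as a linear functional -/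
noncomputable def a1 (N : ℕ) : CuspForm (Gamma0 N) 2 →ₗ[ℂ] ℂ where
  toFun f := qCoeff ⇑f 1
  map_add' f g := qCoeff_add f g 1
  map_smul' c f := by simpa using qCoeff_csmul c f 1

@[simp] theorem a1_apply (f : CuspForm (Gamma0 N) 2) : a1 N f = qCoeff ⇑f 1 := rfl

theorem eq_zero_of_forall_a1 (f : CuspForm (Gamma0 N) 2)
    (h : ∀ t ∈ CuspForm.heckeAlgebra N 2 ∅, a1 N (t f) = 0) : f = 0 := by
  apply eq_zero_of_qCoeff
  intro n
  have := qCoeff_mem_of_forall (N := N) ⊥ n f (fun t ht => by
    rw [AddSubgroup.mem_bot]; exact h t ht)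
  simpa using this

theorem mem_intLattice_of_forall_a1 (f : CuspForm (Gamma0 N) 2)
    (h : ∀ t ∈ CuspForm.heckeAlgebra N 2 ∅, ∃ m : ℤ, a1 N (t f) = m) :
    f ∈ CuspForm.intLattice N 2 := by
  rw [mem_intLattice_iff]
  intro n
  have := qCoeff_mem_of_forall (N := N) (Int.castAddHom ℂ).range n f (fun t ht => by
    obtain ⟨m, hm⟩ := h t ht
    exact ⟨m, hm.symm⟩)
  obtain ⟨m, hm⟩ := this
  exact ⟨m, hm.symm⟩

end Fermat.Agent.S23lib
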