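import Fermat.Agent.S23lib.Stable
import Fermat.Agent.S23lib.Decomp
import Fermat.Agent.S23lib.QExp
import Fermat.Agent.S22b.Main

/-!
# S23 from the Eichler–Shimura isomorphism (S21)
-/

set_option autoImplicit false

namespace Fermat.Agent.S23lib

open UpperHalfPlane Filter Topology CongruenceSubgroup Matrix.SpecialLinearGroup
open ModularCurve ModularCurve.Period
open scoped MatrixGroups ModularForm Manifold

noncomputable section

/-- evaluation of homomorphisms -/
def evHom (N : ℕ) : (Additive (Gamma0 N) →+ ℂ) →ₗ[ℂ] (Gamma0 N → ℂ) where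
  toFun φ γ := φ (Additive.ofMul γ)
  map_add' _ _ := rfl
  map_smul' _ _ := rfl

theorem evHom_injective (N : ℕ) : Function.Injective (evHom N) := by
  intro φ ψ h
  refine AddMonoidHom.ext fun γ => ?_
  exact congrFun h (Additive.toMul γ)

theorem hasIntegralStructure_of (N : ℕ) [NeZero N]
    (hE : ∀ f : CuspForm (Gamma0 N) 2, ∃ F, HasEquivariantPrimitive N f F)
    (hinj : Function.Injective (periodHomPair N))
    (hrange : LinearMap.range (periodHomPair N) = parabolicHoms ℂ (Gamma0 N) ℂ) :
    CuspForm.HasIntegralStructure N 2 := by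
  classical
  by_cases h : ExistsPeriodMapLinear N
  swap
  · have h0 : periodHomPair N = 0 := by
      unfold periodHomPair
      rw [dif_neg h]
    have hsub : Subsingleton (CuspForm (Gamma0 N) 2) := by
      refine ⟨fun f g => ?_⟩
      have : ((f, 0) : CuspForm (Gamma0 N) 2 × CuspForm (Gamma0 N) 2) = (g, 0) :=
        hinj (by rw [h0]; rfl)
      exact congrArg Prod.fst this
    unfold CuspForm.HasIntegralStructure
    exact Subsingleton.elim _ _
  obtain ⟨pml, hpml, hdef⟩ := periodHomPair_def N h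
  set ι := charInvolution N ℂ ℂ with hι
  have hιι : ∀ ψ, ι (ι ψ) = ψ := charInvolution_charInvolution N ℂ ℂ
  set Q : CuspForm (Gamma0 N) 2 →ₗ[ℂ] (Additive (Gamma0 N) →+ ℂ) :=
    (LinearMap.id + ι) ∘ₗ pml with hQ
  have hQ1 : ∀ f, periodHomPair N (f, 0) = Q f := by
    intro f
    rw [hdef]
    simp [hQ]
  have hιQ : ∀ f, ι (Q f) = Q f := by
    intro f
    simp only [hQ, LinearMap.comp_apply, LinearMap.add_apply, LinearMap.id_apply, map_add, hιι]
    rw [add_comm]
  set P : CuspForm (Gamma0 N) 2 →ₗ[ℂ] (Gamma0 N → ℂ) := evHom N ∘ₗ Q with hPdef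
  have hPpp : ∀ f γ, P f γ = pp f γ := by
    intro f γ
    simp only [hPdef, hQ, LinearMap.comp_apply, LinearMap.add_apply, LinearMap.id_apply, evHom,
      LinearMap.coe_mk, AddHom.coe_mk, AddMonoidHom.add_apply, hι, charInvolution_apply, hpml, pp,
      toMul_ofMul]
  have hQinj : Function.Injective Q := by
    intro f g hfg
    have : ((f, 0) : CuspForm (Gamma0 N) 2 × CuspForm (Gamma0 N) 2) = (g, 0) :=
      hinj (by rw [hQ1, hQ1, hfg])
    exact congrArg Prod.fst this
  have hPinj : Function.Injective P := (evHom_injective N).comp hQinj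
  have hInt : ∀ f, IsPInt f ↔ ∀ γ, ∃ m : ℤ, P f γ = m := by
    intro f
    simp only [IsPInt, hPpp]
  -- stability
  have hstab : ∀ t ∈ CuspForm.heckeAlgebra N 2 ∅, ∀ f ∈ {f | IsPInt f}, t f ∈ {f | IsPInt f} := by
    intro t ht
    induction ht using Algebra.adjoin_induction with
    | mem x hx =>
      intro f hf
      rcases hx with ⟨ℓ, hℓ, hℓN, -, rfl⟩ | ⟨q, hqN, hq, -, rfl⟩
      · exact IsPInt.heckeT hE hℓ hℓN hf
      · exact IsPInt.heckeU hE hq hqN hf
    | algebraMap r =>
      intro f hf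
      rw [Set.mem_ofPred_eq, hInt] at hf ⊢
      intro γ
      obtain ⟨m, hm⟩ := hf γ
      refine ⟨r * m, ?_⟩
      have : (algebraMap ℤ (Module.End ℂ (CuspForm (Gamma0 N) 2)) r) f = (r : ℂ) • f := by
        simp only [Algebra.algebraMap_eq_smul_one, LinearMap.smul_apply, Module.End.one_apply]
        exact (Int.cast_smul_eq_zsmul ℂ r f).symm
      rw [this, map_smul, Pi.smul_apply, hm]
      simp
    | add x y _ _ hx hy =>
      intro f hf
      have h1 := hx f hf
      have h2 := hy f hf
      rw [Set.mem_ofPred_eq, hInt] at h1 h2 ⊢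
      intro γ
      obtain ⟨m1, hm1⟩ := h1 γ
      obtain ⟨m2, hm2⟩ := h2 γ
      refine ⟨m1 + m2, ?_⟩
      rw [LinearMap.add_apply, map_add, Pi.add_apply, hm1, hm2]
      simp
    | mul x y _ _ hx hy =>
      intro f hf
      exact hx _ (hy f hf)
  -- spanning
  have hspan : Submodule.span ℂ {f : CuspForm (Gamma0 N) 2 | IsPInt f} = ⊤ := by
    rw [eq_top_iff]
    intro f _
    have : Group.FG (Gamma0 N) := Fermat.Agent.S22b.fg_Gamma0 N
    obtain ⟨n, e, L, hL1, hL2⟩ := exists_int_decomp (G := Gamma0 N) (Q f)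
    have hpar : Q f ∈ parabolicHoms ℂ (Gamma0 N) ℂ := by
      rw [← hrange, ← hQ1]; exact ⟨_, rfl⟩
    have hex : ∀ i, ∃ fi : CuspForm (Gamma0 N) 2, Q fi = (L i).comp (Q f) := by
      intro i
      have hpi : (L i).comp (Q f) ∈ parabolicHoms ℂ (Gamma0 N) ℂ := by
        rw [mem_parabolicHoms_iff] at hpar ⊢
        intro γ hγ
        rw [AddMonoidHom.comp_apply, hpar γ hγ, map_zero]
      have hιi : ι ((L i).comp (Q f)) = (L i).comp (Q f) := by
        refine AddMonoidHom.ext fun γ => ?_
        have := congrArg (fun φ : Additive (Gamma0 N) →+ ℂ => φ γ) (hιQ f)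
        simp only [hι, charInvolution_apply, AddMonoidHom.comp_apply] at this ⊢
        rw [this]
      rw [← hrange] at hpi
      obtain ⟨⟨fi, gi⟩, hfg⟩ := hpi
      refine ⟨fi, ?_⟩
      have h1 : Q fi + (pml gi - ι (pml gi)) = (L i).comp (Q f) := by
        rw [← hfg, hdef]
        simp [hQ]
      have h2 : Q fi - (pml gi - ι (pml gi)) = (L i).comp (Q f) := by
        have := congrArg ι h1
        rw [map_add, hιQ, hιi] at this
        rw [← this]
        simp only [map_sub, hιι]
        abel
      have h3 : (2 : ℂ) • Q fi = (2 : ℂ) • (L i).comp (Q f) := by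
        rw [two_smul, two_smul]
        nth_rewrite 1 [← h1]
        nth_rewrite 1 [← h2]
        abel
      exact smul_right_injective _ (two_ne_zero) h3
    choose fi hfi using hex
    have hf : f = ∑ i, e i • fi i := by
      apply hQinj
      rw [map_sum]
      refine AddMonoidHom.ext fun γ => ?_
      rw [hL2 γ, AddMonoidHom.finsetSum_apply]
      refine Finset.sum_congr rfl fun i _ => ?_
      rw [map_smul, hfi]
      rfl
    rw [hf]
    refine Submodule.sum_mem _ fun i _ => Submodule.smul_mem _ _ (Submodule.subset_span ?_)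
    rw [Set.mem_ofPred_eq, hInt]
    intro γ
    obtain ⟨m, hm⟩ := hL1 i (Additive.ofMul γ)
    refine ⟨m, ?_⟩
    rw [← hm]
    simp only [hPdef, LinearMap.comp_apply, hfi]
    rfl
  have hfin : Module.Finite ℤ (CuspForm.heckeAlgebra N 2 ∅) :=
    Fermat.Agent.S22b.finite_heckeAlgebra N 2 ∅
  have key := span_integral_eq_top (CuspForm.heckeAlgebra N 2 ∅)
    (fun s hs t ht => congrArg Subtype.val
      (mul_comm (⟨s, hs⟩ : CuspForm.heckeAlgebra N 2 ∅) ⟨t, ht⟩))
    (a1 N) eq_zero_of_forall_a1 P hPinj {f | IsPInt f}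
    (fun f hf => (hInt f).mp hf) hstab hspan
  unfold CuspForm.HasIntegralStructure
  rw [eq_top_iff, ← key]
  exact Submodule.span_mono fun f hf => mem_intLattice_of_forall_a1 f hf

end

end Fermat.Agent.S23lib
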