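import Fermat.Agent.S23lib.JConj

/-!
# S23: the forms with integral symmetrised periods are stable under the Hecke operators.
-/

set_option autoImplicit false

namespace Fermat.Agent.S23lib

open UpperHalfPlane Filter Topology CongruenceSubgroup Matrix.SpecialLinearGroup
open ModularCurve ModularCurve.Period
open scoped MatrixGroups ModularForm Manifold
open P2MW.S_ModularForm_heckeT_slash_eq_self_of_mem_Gamma0.ModularForm.HeckeSlashInvariance

noncomputable section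

variable {N : ℕ}

theorem jc_heckeMatrix {p : ℕ} [NeZero p] (x : ZMod p) :
    ∃ ε ∈ Gamma0 N, jc (ModularForm.heckeMatrix p x.val) =
      mapGL ℝ ε * ModularForm.heckeMatrix p (-x).val := by
  have hp : p ≠ 0 := NeZero.ne p
  have hdvd : p ∣ x.val + (-x).val := by
    rw [← ZMod.natCast_eq_zero_iff]
    simp
  obtain ⟨s, hs⟩ := hdvd
  refine ⟨ModularGroup.T ^ (-(s : ℤ)), ?_, ?_⟩
  · rw [Gamma0_mem, ModularGroup.coe_T_zpow]
    simp
  · apply Units.ext
    have hT : ((mapGL ℝ (ModularGroup.T ^ (-(s : ℤ))) : GL (Fin 2) ℝ) : Matrix (Fin 2) (Fin 2) ℝ) =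
        !![1, -(s : ℝ); 0, 1] := by
      rw [mapGL_coe_matrix, Matrix.SpecialLinearGroup.map_apply_coe, ModularGroup.coe_T_zpow]
      ext i j
      fin_cases i <;> fin_cases j <;> simp
    rw [val_jc, Units.val_mul, hT, ModularForm.val_heckeMatrix hp, ModularForm.val_heckeMatrix hp]
    have hs' : (x.val : ℝ) + ((-x).val : ℝ) = p * s := by exact_mod_cast hs
    ext i j
    fin_cases i <;> fin_cases j <;>
      simp [Matrix.mul_apply, Fin.sum_univ_two]
    simp only [ZMod.natCast_val] at hs'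
    linarith [mul_comm (s : ℝ) (p : ℝ)]

theorem jc_heckeDiagMatrix {p : ℕ} (hp : p ≠ 0) :
    jc (ModularForm.heckeDiagMatrix p) = ModularForm.heckeDiagMatrix p := by
  apply Units.ext
  rw [val_jc, ModularForm.val_heckeDiagMatrix hp]
  ext i j
  fin_cases i <;> fin_cases j <;> simp

/-- integrality of all symmetrised periods -/
def IsPInt (f : CuspForm (Gamma0 N) 2) : Prop := ∀ γ : Gamma0 N, ∃ m : ℤ, pp f γ = m

theorem exists_int_sum {ι : Type*} (s : Finset ι) (c : ι → ℂ) (h : ∀ i ∈ s, ∃ m : ℤ, c i = m) :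
    ∃ m : ℤ, ∑ i ∈ s, c i = m := by
  have : ∑ i ∈ s, c i ∈ (Int.castAddHom ℂ).range :=
    AddSubgroup.sum_mem _ fun i hi => by
      obtain ⟨m, hm⟩ := h i hi
      exact ⟨m, hm.symm⟩
  obtain ⟨m, hm⟩ := this
  exact ⟨m, hm.symm⟩

theorem IsPInt.heckeT (hE : ∀ f : CuspForm (Gamma0 N) 2, ∃ F, HasEquivariantPrimitive N f F)
    {p : ℕ} (hp : p.Prime) (hpN : ¬ p ∣ N) {f : CuspForm (Gamma0 N) 2} (hf : IsPInt f) :
    IsPInt (CuspForm.heckeTLin 2 hp hpN f) := by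
  have : Fact p.Prime := ⟨hp⟩
  have : NeZero p := ⟨hp.ne_zero⟩
  intro γ
  have hcN : (N : ℤ) ∣ (γ : SL(2, ℤ)) 1 0 :=
    (ZMod.intCast_zmod_eq_zero_iff_dvd _ _).mp (CongruenceSubgroup.Gamma0_mem.mp γ.2)
  have hex : ∀ x, ∃ g' : Gamma0 N, heckeRep p x * mapGL ℝ (γ : SL(2, ℤ)) =
      mapGL ℝ (g' : SL(2, ℤ)) * heckeRep p (MulAction.toPerm (redMatrix p γ) x) := by
    intro x
    obtain ⟨g', hg', hmul⟩ := heckeRep_mul hpN γ hcN x
    exact ⟨⟨g', CongruenceSubgroup.Gamma0_mem.mpr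
      ((ZMod.intCast_zmod_eq_zero_iff_dvd _ _).mpr hg')⟩, hmul⟩
  choose γ' hγ' using hex
  rw [pp_hecke (J' := OnePoint (ZMod p)) (heckeRep p) ?_ ?_ hE f _ ?_ γ
    (MulAction.toPerm (redMatrix p γ)) γ' hγ']
  · exact exists_int_sum _ _ fun j _ => hf (γ' j)
  · intro x
    induction x using OnePoint.rec with
    | infty => exact ModularForm.det_heckeDiagMatrix_pos p
    | coe j => exact ModularForm.det_heckeMatrix_pos p _
  · refine ⟨Equiv.optionCongr (Equiv.neg (ZMod p)), fun x => ?_⟩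
    induction x using OnePoint.rec with
    | infty =>
      refine ⟨1, one_mem _, ?_⟩
      rw [map_one, one_mul]
      exact jc_heckeDiagMatrix hp.ne_zero
    | coe j => exact jc_heckeMatrix j
  · rw [CuspForm.coe_heckeTLin_apply, heckeT_eq_sum_onePoint]

theorem IsPInt.heckeU [NeZero N]
    (hE : ∀ f : CuspForm (Gamma0 N) 2, ∃ F, HasEquivariantPrimitive N f F)
    {q : ℕ} (hq : q.Prime) (hqN : q ∣ N) {f : CuspForm (Gamma0 N) 2} (hf : IsPInt f) :
    IsPInt (CuspForm.heckeULin 2 hqN f) := by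
  have : NeZero q := ⟨hq.ne_zero⟩
  intro γ
  have hcN : (N : ℤ) ∣ (γ : SL(2, ℤ)) 1 0 :=
    (ZMod.intCast_zmod_eq_zero_iff_dvd _ _).mp (CongruenceSubgroup.Gamma0_mem.mp γ.2)
  have hc : (q : ℤ) ∣ (γ : SL(2, ℤ)) 1 0 := (Int.natCast_dvd_natCast.mpr hqN).trans hcN
  have hex : ∀ x : ZMod q, ∃ g' : Gamma0 N,
      ModularForm.heckeMatrix q x.val * mapGL ℝ (γ : SL(2, ℤ)) =
      mapGL ℝ (g' : SL(2, ℤ)) * ModularForm.heckeMatrix q
        ((affinePerm (γ : SL(2, ℤ)) ((ZMod.intCast_zmod_eq_zero_iff_dvd _ _).mpr hc)) x).val := by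
    intro x
    obtain ⟨g', hg', hmul⟩ := heckeMatrix_mul_of_dvd (γ : SL(2, ℤ)) hc x
    refine ⟨⟨g', ?_⟩, hmul⟩
    rw [CongruenceSubgroup.Gamma0_mem, hg']
    push_cast
    rw [CongruenceSubgroup.Gamma0_mem.mp γ.2, mul_zero]
  choose γ' hγ' using hex
  rw [pp_hecke (J' := ZMod q) (fun x => ModularForm.heckeMatrix q x.val) ?_ ?_ hE f _ ?_ γ
    (affinePerm (γ : SL(2, ℤ)) ((ZMod.intCast_zmod_eq_zero_iff_dvd _ _).mpr hc)) γ' hγ']
  · exact exists_int_sum _ _ fun j _ => hf (γ' j)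
  · intro x
    exact ModularForm.det_heckeMatrix_pos q _
  · exact ⟨Equiv.neg (ZMod q), fun x => jc_heckeMatrix x⟩
  · rw [CuspForm.coe_heckeULin_apply, heckeU_eq_sum_zmod]

end

end Fermat.Agent.S23lib
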