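import Fermat.Agent.S23lib.Period

/-!
# S23: symmetry of the Hecke representatives under conjugation by `diag(-1,1)`.
-/

set_option autoImplicit false

namespace Fermat.Agent.S23lib

open UpperHalfPlane Filter Topology CongruenceSubgroup Matrix.SpecialLinearGroup
open ModularCurve ModularCurve.Period
open scoped MatrixGroups ModularForm Manifold

noncomputable section

/-- conjugation by `J = diag(-1,1)` -/
def jc (g : GL (Fin 2) ℝ) : GL (Fin 2) ℝ := J * g * J

theorem J_mul_J : (J * J : GL (Fin 2) ℝ) = 1 := by rw [← sq, J_sq]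

theorem jc_mul (g h : GL (Fin 2) ℝ) : jc (g * h) = jc g * jc h := by
  unfold jc
  calc J * (g * h) * J = J * g * (1 : GL (Fin 2) ℝ) * h * J := by group
    _ = J * g * (J * J) * h * J := by rw [J_mul_J]
    _ = _ := by group

theorem det_jc (g : GL (Fin 2) ℝ) : (jc g).det = g.det := by
  unfold jc
  rw [map_mul, map_mul, det_J]
  simp

theorem val_jc (g : GL (Fin 2) ℝ) :
    (jc g : Matrix (Fin 2) (Fin 2) ℝ) = !![g 0 0, -g 0 1; -g 1 0, g 1 1] := by
  unfold jc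
  ext i j
  fin_cases i <;> fin_cases j <;>
    simp [Matrix.mul_apply, Fin.sum_univ_two, Matrix.vecMul, dotProduct]

theorem jc_mapGL (γ : SL(2, ℤ)) : jc (mapGL ℝ γ) = mapGL ℝ (jConjSL γ) := by
  apply Units.ext
  rw [val_jc]
  ext i j
  fin_cases i <;> fin_cases j <;> simp [jConjMat]

variable {N : ℕ}

/-- the symmetrised period -/
def pp (f : CuspForm (Gamma0 N) 2) (γ : Gamma0 N) : ℂ :=
  periodMap N f (Additive.ofMul γ) + periodMap N f (Additive.ofMul (jConjGamma0 N γ))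

theorem pp_hecke {J' : Type*} [Fintype J'] (α : J' → GL (Fin 2) ℝ)
    (hdet : ∀ j, 0 < (α j).det.val)
    (hJ : ∃ ρ : Equiv.Perm J', ∀ j, ∃ ε ∈ Gamma0 N, jc (α j) = mapGL ℝ ε * α (ρ j))
    (hE : ∀ f : CuspForm (Gamma0 N) 2, ∃ F, HasEquivariantPrimitive N f F)
    (f g : CuspForm (Gamma0 N) 2) (ht : ⇑g = ∑ j, (⇑f) ∣[(2 : ℤ)] α j)
    (γ : Gamma0 N) (π : Equiv.Perm J') (γ' : J' → Gamma0 N)
    (hmul : ∀ j, α j * mapGL ℝ (γ : SL(2, ℤ)) = mapGL ℝ (γ' j : SL(2, ℤ)) * α (π j)) :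
    pp g γ = ∑ j, pp f (γ' j) := by
  unfold pp
  rw [Finset.sum_add_distrib, periodMap_hecke α hdet hE f g ht γ π γ' hmul]
  congr 1
  obtain ⟨ρ, hρ⟩ := hJ
  refine periodMap_hecke (fun j => jc (α j)) (fun j => by rw [det_jc]; exact hdet j) hE f g ?_
    (jConjGamma0 N γ) π (fun j => jConjGamma0 N (γ' j)) ?_
  · rw [ht, ← Equiv.sum_comp ρ]
    refine Finset.sum_congr rfl fun j _ => ?_
    obtain ⟨ε, hε, he⟩ := hρ j
    rw [he, SlashAction.slash_mul,
      SlashInvariantFormClass.slash_action_eq f _ (Subgroup.mem_map_of_mem (mapGL ℝ) hε)]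
  · intro j
    rw [jConjGamma0_coe, jConjGamma0_coe, ← jc_mapGL, ← jc_mapGL, ← jc_mul, ← jc_mul, hmul]

end

end Fermat.Agent.S23lib
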