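import Mathlib
import Fermat.Prelude.Def_ModularCurve_PeriodHomPair
import Fermat.Prelude.Def_CuspForm_HeckeAlgebra

/-!
# S23: periods of Hecke translates
-/

set_option autoImplicit false

namespace Fermat.Agent.S23lib

open UpperHalfPlane Filter Topology CongruenceSubgroup Matrix.SpecialLinearGroup
open ModularCurve ModularCurve.Period
open scoped MatrixGroups ModularForm Manifold

noncomputable section

/-- `F` is a holomorphic primitive of `f` on the upper half plane. -/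
def IsP (f F : ℍ → ℂ) : Prop := ∀ τ : ℍ, HasDerivAt (F ∘ ofComplex) (f τ) (τ : ℂ)

theorem IsP.exists_const {f F F₀ : ℍ → ℂ} (h : IsP f F) (h₀ : IsP f F₀) :
    ∃ c : ℂ, ∀ z, F₀ z = F z + c := by
  refine ⟨F₀ I - F I, fun τ => ?_⟩
  have hd : ∀ σ : ℍ, HasDerivAt (fun z : ℂ => (F₀ ∘ ofComplex) z - (F ∘ ofComplex) z) 0 (σ : ℂ) :=
    fun σ => ((h₀ σ).sub (h σ)).congr_deriv (sub_self _)
  have := isOpen_upperHalfPlaneSet.is_const_of_deriv_eq_zero
    ((convex_halfSpace_im_gt 0).isPreconnected)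
    (f := fun z : ℂ => (F₀ ∘ ofComplex) z - (F ∘ ofComplex) z)
    (fun z hz => (hd ⟨z, hz⟩).differentiableAt.differentiableWithinAt)
    (fun z hz => (hd ⟨z, hz⟩).deriv) τ.im_pos I.im_pos
  simp only [Function.comp, ofComplex_apply] at this
  linear_combination this

theorem IsP.slash {f F : ℍ → ℂ} (h : IsP f F) (g : GL (Fin 2) ℝ) (hg : 0 < g.det.val) :
    IsP (f ∣[(2 : ℤ)] g) (fun τ => F (g • τ)) := by
  intro τ
  have hg' : 0 < g.val.det := by
    rwa [Matrix.GeneralLinearGroup.val_det_apply] at hg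
  have h2 : HasDerivAt (fun z ↦ ↑(g • ofComplex z) : ℂ → ℂ) (g.val.det / denom g τ ^ 2) τ :=
    (hasStrictDerivAt_smul hg' τ).hasDerivAt
  have h1' : HasDerivAt (F ∘ ofComplex) (f (g • τ)) ((fun z ↦ ↑(g • ofComplex z) : ℂ → ℂ) τ) := by
    simpa [ofComplex_apply] using h (g • τ)
  have h3 := h1'.comp (τ : ℂ) h2
  have hfun : ((fun τ => F (g • τ)) ∘ ofComplex) =
      (F ∘ ofComplex) ∘ (fun z ↦ ↑(g • ofComplex z) : ℂ → ℂ) := by
    funext z
    simp [ofComplex_apply]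
  rw [hfun]
  refine h3.congr_deriv ?_
  rw [ModularForm.slash_apply, UpperHalfPlane.σ, if_pos hg]
  have hd2 : denom g τ ≠ 0 := denom_ne_zero g τ
  rw [abs_of_pos hg, ← Matrix.GeneralLinearGroup.val_det_apply]
  simp only [ContinuousAlgEquiv.refl_apply]
  have e1 : ((2 : ℤ) - 1) = 1 := by norm_num
  rw [e1, zpow_one, zpow_neg]
  have e2 : denom g τ ^ (2 : ℤ) = denom g τ ^ 2 := by norm_cast
  rw [e2]
  field_simp

theorem IsP.sum {ι : Type*} (s : Finset ι) {f : ι → ℍ → ℂ} {F : ι → ℍ → ℂ}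
    (h : ∀ i ∈ s, IsP (f i) (F i)) : IsP (∑ i ∈ s, f i) (fun τ => ∑ i ∈ s, F i τ) := by
  intro τ
  have := HasDerivAt.fun_sum (u := s) (A := fun i => F i ∘ ofComplex) (A' := fun i => f i τ)
    (x := (τ : ℂ)) (fun i hi => h i hi τ)
  simpa [Function.comp_def, Finset.sum_apply] using this

variable {N : ℕ}

theorem periodMap_eq_of_isP {f : CuspForm (Gamma0 N) 2}
    (hE : ∃ F, HasEquivariantPrimitive N f F) {F' : ℍ → ℂ} (h : IsP f F') (γ : Gamma0 N) (z : ℍ) :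
    periodMap N f (Additive.ofMul γ) = F' ((γ : SL(2, ℤ)) • z) - F' z := by
  obtain ⟨F, hF⟩ := hE
  obtain ⟨F₀, h₀, heq⟩ := periodMap_def N f hF
  rw [heq, IsEquivariantPrimitive.periodHom_apply, ← h₀.2.2.1.sub_eq_period γ z]
  obtain ⟨c, hc⟩ := IsP.exists_const (f := f) (F := F') (F₀ := F₀) h h₀.1
  rw [hc, hc]
  ring

/-- periods of a Hecke translate -/
theorem periodMap_hecke {J : Type*} [Fintype J] (α : J → GL (Fin 2) ℝ)
    (hdet : ∀ j, 0 < (α j).det.val)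
    (hE : ∀ f : CuspForm (Gamma0 N) 2, ∃ F, HasEquivariantPrimitive N f F)
    (f g : CuspForm (Gamma0 N) 2) (ht : ⇑g = ∑ j, (⇑f) ∣[(2 : ℤ)] α j)
    (γ : Gamma0 N) (π : Equiv.Perm J) (γ' : J → Gamma0 N)
    (hmul : ∀ j, α j * mapGL ℝ (γ : SL(2, ℤ)) = mapGL ℝ (γ' j : SL(2, ℤ)) * α (π j)) :
    periodMap N g (Additive.ofMul γ) = ∑ j, periodMap N f (Additive.ofMul (γ' j)) := by
  obtain ⟨F, hF⟩ := hE f
  have hP : IsP f F := hF.1
  have hPt : IsP g (fun τ => ∑ j, F (α j • τ)) := by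
    rw [ht]
    exact IsP.sum Finset.univ fun j _ => hP.slash (α j) (hdet j)
  rw [periodMap_eq_of_isP (hE g) hPt γ I]
  rw [← Equiv.sum_comp π (fun j => F (α j • I)), ← Finset.sum_sub_distrib]
  refine Finset.sum_congr rfl fun j _ => ?_
  rw [periodMap_eq_of_isP (hE f) hP (γ' j) (α (π j) • I)]
  congr 2
  have e1 : ((γ : SL(2, ℤ)) • I : ℍ) = mapGL ℝ (γ : SL(2, ℤ)) • I := rfl
  have e2 : ((γ' j : SL(2, ℤ)) • (α (π j) • I) : ℍ) = mapGL ℝ (γ' j : SL(2, ℤ)) • (α (π j) • I) := rfl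
  rw [e1, e2, ← mul_smul, ← mul_smul, hmul]

end

end Fermat.Agent.S23lib
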